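/-
S29 / M4b piece `K4-ADD` (helper503): additivity of the Kummer relation.
Exact statement of `Fermat/Agent/S29/M4b/Skeleton.lean` (origin/helper822): `isKum_add`.
-/
import Fermat.Agent.S29.M4b.Defs
import Fermat.Agent.S29.H882.GoodQ

set_option autoImplicit false

noncomputable section

open ModularCurve AlgebraicCurve CongruenceSubgroup UpperHalfPlane
open scoped MatrixGroups Manifold

namespace Fermat.Agent.S29.M4b.H503

open Fermat.Agent.S24 Fermat.Agent.S29 Fermat.Agent.S29.M4b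

/-- `ζ_p ^ p = 1`. -/
theorem zetaP_pow_self (p : ℕ) [NeZero p] : zetaP p ^ p = 1 := by
  unfold zetaP
  rw [← Complex.exp_nat_mul]
  have hp : (p : ℂ) ≠ 0 := by exact_mod_cast NeZero.ne p
  rw [mul_div_cancel₀ _ hp]
  exact Complex.exp_two_pi_mul_I

theorem zetaP_ne_zero (p : ℕ) : zetaP p ≠ 0 := Complex.exp_ne_zero _

/-- `ζ_p ^ n` only depends on `n` modulo `p`. -/
theorem zetaP_pow_val (p : ℕ) [NeZero p] (n : ℕ) :
    zetaP p ^ ((n : ZMod p).val) = zetaP p ^ n := by
  rw [ZMod.val_natCast]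
  conv_rhs => rw [← Nat.mod_add_div n p]
  rw [pow_add, pow_mul, zetaP_pow_self, one_pow, mul_one]

theorem zetaP_pow_val_add (p : ℕ) [NeZero p] (a b : ZMod p) :
    zetaP p ^ (a + b).val = zetaP p ^ a.val * zetaP p ^ b.val := by
  rw [← pow_add, ← zetaP_pow_val p (a.val + b.val)]
  congr 2
  push_cast
  rw [ZMod.natCast_zmod_val, ZMod.natCast_zmod_val]

variable (N : ℕ) [NeZero N] (p : ℕ) [NeZero p]

omit [NeZero N] [NeZero p] in
/-- A function whose `p`-th power is good and which is not identically zero has a `p`-th power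
with nonzero `q`-expansion. -/
theorem qexpFun_pow_ne_zero {U : ℍ → ℂ} (hmem : (fun τ => U τ ^ p) ∈ H648.goodRing N)
    (hne : ∃ τ : ℍ, U τ ≠ 0) : H708.qexpFun 1 (fun τ => U τ ^ p) ≠ 0 := by
  intro h0
  rw [H708.qexpFun_eq_zero_iff (H882.isMerInf_of_mem_goodRing hmem)] at h0
  obtain ⟨τ, hτ⟩ := hne
  exact pow_ne_zero p hτ (congrFun h0 τ)

/-- Product of twisted functions. -/
theorem IsTwisted.mul' {c c' : G0 N → ZMod p} {U U' : ℍ → ℂ} (hU : IsTwisted N p c U)
    (hU' : IsTwisted N p c' U') : IsTwisted N p (c + c') (fun τ => U τ * U' τ) := by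
  have hpow : (fun τ => (U τ * U' τ) ^ p) = (fun τ => U τ ^ p) * (fun τ => U' τ ^ p) := by
    funext τ
    simp [mul_pow]
  have hmem : (fun τ => (U τ * U' τ) ^ p) ∈ H648.goodRing N := by
    rw [hpow]
    exact mul_mem hU.pow_mem hU'.pow_mem
  refine ⟨hU.mdiff.mul hU'.mdiff, ?_, ?_, hmem⟩
  · -- the product is not identically zero: look at `q`-expansions
    by_contra hall
    have hall : ∀ τ : ℍ, U τ * U' τ = 0 := by
      intro τ
      by_contra hτ
      exact hall ⟨τ, hτ⟩
    have h0 : (fun τ => (U τ * U' τ) ^ p) = 0 := by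
      funext τ
      have hp : p ≠ 0 := NeZero.ne p
      simp [hall τ, hp]
    have h1 : H708.qexpFun 1 (fun τ => (U τ * U' τ) ^ p) = 0 := by
      rw [H708.qexpFun_eq_zero_iff (H882.isMerInf_of_mem_goodRing hmem)]
      exact h0
    rw [hpow, H708.qexpFun_mul (H882.isMerInf_of_mem_goodRing hU.pow_mem)
      (H882.isMerInf_of_mem_goodRing hU'.pow_mem)] at h1
    rcases mul_eq_zero.mp h1 with h | h
    · exact qexpFun_pow_ne_zero N p hU.pow_mem hU.ne_zero h
    · exact qexpFun_pow_ne_zero N p hU'.pow_mem hU'.ne_zero h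
  · intro γ τ
    show U ((γ : SL(2, ℤ)) • τ) * U' ((γ : SL(2, ℤ)) • τ) = _
    rw [hU.hasChar γ τ, hU'.hasChar γ τ, Pi.add_apply, zetaP_pow_val_add]
    ring

/-- PIECE `K4-ADD`: additivity (product of the data). -/
theorem isKum_add {c c' : G0 N → ZMod p} {x x' : JZero N}
    (h : IsKum N p c x) (h' : IsKum N p c' x') : IsKum N p (c + c') (x + x') := by
  obtain ⟨f, t, U, ht, hx, hU, hmem, hq⟩ := h
  obtain ⟨f', t', U', ht', hx', hU', hmem', hq'⟩ := h'
  refine ⟨f * f', t * t', fun τ => U τ * U' τ, mul_ne_zero ht ht', hx.add hx',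
    IsTwisted.mul' N p hU hU', ?_, ?_⟩
  · exact (IsTwisted.mul' N p hU hU').pow_mem
  · have hpow : (fun τ => (U τ * U' τ) ^ p) = (fun τ => U τ ^ p) * (fun τ => U' τ ^ p) := by
      funext τ
      simp [mul_pow]
    rw [hpow, H708.qexpFun_mul (H882.isMerInf_of_mem_goodRing hmem)
      (H882.isMerInf_of_mem_goodRing hmem'), hq, hq', ← map_mul]
    congr 1
    push_cast
    ring

end Fermat.Agent.S29.M4b.H503
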