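/-
S29 / M4b piece `K4-INJ` (helper503): only the trivial character has Kummer class `0`.
Exact statement of `Fermat/Agent/S29/M4b/Skeleton.lean` (origin/helper822): `isKum_zero_right`.

Proof.  `x = 0` gives `g` with `div f = p div g`; `f / g ^ p` has no zeros and poles, hence is a
constant `a₀ = b ^ p` (CONST_F, landed `S18.H504`), so `f t ^ p = v ^ p` with `v = b g t ∈ FF N`.
Write `ι v = r / s` with `r, s` polynomials in the `j(q^d)`, realised by good functions `ã, b̃`.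
Then `(U b̃) ^ p = ã ^ p` (same `q`-expansion), hence `U b̃ = ζ ã` with a constant `ζ`, and
evaluating at `τ₀` and `γ τ₀` (with `ã τ₀ ≠ 0`) gives `ζ_p ^ c(γ) = 1`.
-/
import Fermat.Agent.S29.M4b.Defs
import Fermat.Agent.S29.H882.GoodQ
import Fermat.Agent.S29.H882.MeroMain
import Fermat.Agent.S29.H751.PthRootUHP
import Fermat.Agent.S18.H504.ConstF
import Fermat.Agent.S29.M4b.H503.Add

set_option autoImplicit false

noncomputable section

open ModularCurve AlgebraicCurve CongruenceSubgroup UpperHalfPlane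
open scoped MatrixGroups Manifold

namespace Fermat.Agent.S29.M4b.H503

open Fermat.Agent.S24 Fermat.Agent.S29 Fermat.Agent.S29.M4b

/-- `ζ_p ^ k = 1` with `k < p` forces `k = 0`. -/
theorem eq_zero_of_zetaP_pow_eq_one (p : ℕ) [NeZero p] {k : ℕ} (hk : k < p)
    (h : zetaP p ^ k = 1) : k = 0 := by
  have hprim : IsPrimitiveRoot (zetaP p) p := Complex.isPrimitiveRoot_exp p (NeZero.ne p)
  have hdvd : p ∣ k := (hprim.pow_eq_one_iff_dvd k).mp h
  exact Nat.eq_zero_of_dvd_of_lt hdvd hk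

variable (N : ℕ) [NeZero N] (p : ℕ) [NeZero p]

/-- Every element of `FF N` is a quotient of `q`-expansions of good functions. -/
theorem exists_good_div (v : FF N) :
    ∃ (a b : ℍ → ℂ) (r s : LaurentSeries ℂ), a ∈ H648.goodRing N ∧ b ∈ H648.goodRing N ∧
      H708.HasQExp 1 a r ∧ H708.HasQExp 1 b s ∧ s ≠ 0 ∧
      coeffMap Deg457.iotaC ((v : FF N) : LaurentSeries Kbar) * s = r := by
  have h1 : coeffMap Deg457.iotaC ((v : FF N) : LaurentSeries Kbar) ∈
      laurentBaseChange ℂ (modularFunctionFieldFull N) :=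
    H882.coeffMap_mem_laurentBaseChange_of_mem Deg457.iotaC _ v.2
  have h2 := Deg457.laurentBaseChange_full_le (K := ℂ) N h1
  rw [IntermediateField.mem_adjoin_iff_div] at h2
  obtain ⟨r, hr, s, hs, hrs⟩ := h2
  have hrQ : r ∈ H882.goodQ N := H882.AK_le_goodQ N hr
  have hsQ : s ∈ H882.goodQ N := H882.AK_le_goodQ N hs
  obtain ⟨a, ha, har⟩ := hrQ
  obtain ⟨b, hb, hbs⟩ := hsQ
  by_cases hs0 : s = 0
  · -- then `ι v = 0`; use `r = 0`, `s = 1`
    refine ⟨0, 1, 0, 1, zero_mem _, one_mem _, H708.HasQExp.zero 1, H708.HasQExp.one 1,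
      one_ne_zero, ?_⟩
    rw [hrs, hs0, div_zero, zero_mul]
  · exact ⟨a, b, r, s, ha, hb, har, hbs, hs0, by rw [hrs, div_mul_cancel₀ _ hs0]⟩

/-- Core of `K4-INJ`: if `U ^ p` realises a `p`-th power `v ^ p` (`v ≠ 0`), the character of `U`
is trivial. -/
theorem eq_zero_of_realises_pow {c : G0 N → ZMod p} {U : ℍ → ℂ} (hU : IsTwisted N p c U)
    {v : FF N} (hv : v ≠ 0) (hreal : Realises N (v ^ p) (fun τ => U τ ^ p)) : c = 0 := by
  have hp : p ≠ 0 := NeZero.ne p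
  obtain ⟨a, b, r, s, ha, hb, har, hbs, hs0, hrs⟩ := exists_good_div N v
  have hιinj : Function.Injective (coeffMap Deg457.iotaC : LaurentSeries Kbar → _) := by
    intro x y hxy
    ext n
    have := congrArg (fun z => z.coeff n) hxy
    simp only [coeffMap_coeff] at this
    exact Deg457.iotaC.injective this
  have hιv : coeffMap Deg457.iotaC ((v : FF N) : LaurentSeries Kbar) ≠ 0 := by
    intro h0
    apply hv
    have h00 : ((v : FF N) : LaurentSeries Kbar) = 0 := hιinj (by rw [h0, map_zero])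
    exact Subtype.ext h00
  have hr0 : r ≠ 0 := by
    rw [← hrs]
    exact mul_ne_zero hιv hs0
  -- the function `U ^ p * b ^ p` has the same `q`-expansion as `a ^ p`
  have hUp : H708.HasQExp 1 (fun τ => U τ ^ p)
      (coeffMap Deg457.iotaC ((v : FF N) : LaurentSeries Kbar) ^ p) := by
    refine ⟨H882.isMerInf_of_mem_goodRing hreal.1, ?_⟩
    rw [hreal.2, ← map_pow]
    congr 1
  have h1 : H708.HasQExp 1 ((fun τ => U τ ^ p) * b ^ p) (r ^ p) := by
    have := hUp.mul (hbs.pow p)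
    rwa [← mul_pow, hrs] at this
  have h2 : (fun τ => U τ ^ p) * b ^ p = a ^ p := h1.eq_of_eq (har.pow p)
  have hpt : ∀ τ : ℍ, (U τ * b τ) ^ p = a τ ^ p := by
    intro τ
    have := congrFun h2 τ
    simp only [Pi.mul_apply, Pi.pow_apply] at this
    rw [mul_pow]
    exact this
  -- a point where `a` does not vanish
  have ha0 : a ≠ 0 := fun h => hr0 ((har.eq_zero_iff).mpr h)
  obtain ⟨τ₀, hτ₀⟩ : ∃ τ₀ : ℍ, a τ₀ ≠ 0 := by
    by_contra hall
    apply ha0
    funext τ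
    by_contra hτ
    exact hall ⟨τ, hτ⟩
  have hA0 : U τ₀ * b τ₀ ≠ 0 := by
    intro h0
    have := hpt τ₀
    rw [h0, zero_pow hp] at this
    exact hτ₀ (pow_eq_zero_iff hp |>.mp this.symm)
  -- `U b = ζ a`
  set ζ : ℂ := U τ₀ * b τ₀ / a τ₀ with hζ
  have hζp : ζ ^ p = 1 := by
    rw [hζ, div_pow, hpt τ₀, div_self (pow_ne_zero p hτ₀)]
  have hbm : MDifferentiable 𝓘(ℂ) 𝓘(ℂ) b := hb.1
  have ham : MDifferentiable 𝓘(ℂ) 𝓘(ℂ) a := ha.1
  have hAB : (fun τ => U τ * b τ) = (fun τ => ζ * a τ) := by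
    refine H751.eq_of_pow_eq_UHP (hU.mdiff.mul hbm) (mdifferentiable_const.mul ham) hp
      (fun τ => ?_) (τ₀ := τ₀) ?_ hA0
    · rw [hpt τ, mul_pow, hζp, one_mul]
    · rw [hζ, div_mul_cancel₀ _ hτ₀]
  -- evaluate at `γ τ₀`
  funext γ
  have hγ1 := congrFun hAB ((γ : SL(2, ℤ)) • τ₀)
  have hγ0 := congrFun hAB τ₀
  beta_reduce at hγ1 hγ0
  rw [hU.hasChar γ τ₀, hb.2.1 γ γ.2 τ₀, ha.2.1 γ γ.2 τ₀, ← hγ0] at hγ1
  have h3 : zetaP p ^ (c γ).val = 1 := by
    have h4 : (zetaP p ^ (c γ).val - 1) * (U τ₀ * b τ₀) = 0 := by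
      linear_combination hγ1
    rcases mul_eq_zero.mp h4 with h | h
    · exact sub_eq_zero.mp h
    · exact absurd h hA0
  have h5 := eq_zero_of_zetaP_pow_eq_one p (ZMod.val_lt (c γ)) h3
  rw [Pi.zero_apply]
  exact (ZMod.val_eq_zero (c γ)).mp h5

/-- PIECE `K4-INJ`: only the trivial character has Kummer class `0`. -/
theorem isKum_zero_right {c : G0 N → ZMod p} (h : IsKum N p c (0 : JZero N)) : c = 0 := by
  have hp : p ≠ 0 := NeZero.ne p
  have hpz : (p : ℤ) ≠ 0 := by exact_mod_cast hp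
  obtain ⟨f, t, U, ht, hx, hU, hreal⟩ := h
  have hf : f ≠ 0 := hx.ne_zero
  obtain ⟨g, hg, hfg⟩ := (hx.eq_zero_iff hpz).mp rfl
  -- `u = f / g ^ p` has trivial divisor
  set u : FF N := f * (g ^ p)⁻¹ with hu
  have hgp : g ^ p ≠ 0 := pow_ne_zero p hg
  have hu0 : u ≠ 0 := mul_ne_zero hf (inv_ne_zero hgp)
  have hord : ∀ w : Place Kbar (FF N), w.ord u = 0 := by
    intro w
    rw [hu, Place.ord_mul w hf (inv_ne_zero hgp), Place.ord_inv, hfg w]
    have : w.ord (g ^ p) = (p : ℤ) * w.ord g := by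
      have := Place.ord_zpow w g (p : ℤ)
      rwa [zpow_natCast] at this
    rw [this]
    ring
  obtain ⟨a₀, ha₀⟩ := Fermat.Agent.S18.H504.constOfOrdZero_modularFunctionFieldBar N u hu0 hord
  have ha₀0 : a₀ ≠ 0 := by
    rintro rfl
    rw [map_zero] at ha₀
    exact hu0 ha₀
  obtain ⟨b₀, hb₀⟩ := IsAlgClosed.exists_pow_nat_eq a₀ (Nat.pos_of_ne_zero hp)
  have hb₀0 : b₀ ≠ 0 := by
    rintro rfl
    rw [zero_pow hp] at hb₀
    exact ha₀0 hb₀.symm
  set v : FF N := algebraMap Kbar (FF N) b₀ * g * t with hv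
  have hv0 : v ≠ 0 :=
    mul_ne_zero (mul_ne_zero ((map_ne_zero _).mpr hb₀0) hg) ht
  have hvp : v ^ p = f * t ^ p := by
    rw [hv, mul_pow, mul_pow, ← map_pow, hb₀, ← ha₀, hu]
    field_simp
  refine eq_zero_of_realises_pow N p hU hv0 ?_
  rw [hvp]
  exact hreal

end Fermat.Agent.S29.M4b.H503
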