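/-
S29 / M4b piece `K4-UNIQ` (helper503): the Kummer class of a character is unique.
Exact statement of `Fermat/Agent/S29/M4b/Skeleton.lean` (origin/helper822): `isKum_unique`.

Proof.  `V := U * U' ^ (p-1)` is holomorphic, `Γ₀(N)`-invariant, and `V ^ p` is good, hence `V` is
good and `y := qexp V ∈ F_ℂ` (MERO).  `y ^ p = ι w` with `w = f t^p (f' t'^p)^(p-1) ∈ FF N`; every
`σ ∈ Aut(ℂ/ℚ̄)` maps `y` to `ζ y` with `ζ ^ p = 1`, so the coefficients of `y` have finite orbits and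
lie in `ℚ̄` (`H32.mem_range_of_finite_orbit`); hence `y = ι v` with `v ∈ F_ℂ ∩ ℚ̄((q)) = FF N`
(`H882.mem_laurentBaseChange_of_coeffMap_mem`) and `w = v ^ p`.  So `f f'^(p-1)` is a `p`-th power
in `FF N`, `x + (p-1) x' = 0`, and `p x' = 0` gives `x = x'`.
-/
import Fermat.Agent.S29.M4b.Defs
import Fermat.Agent.S29.H882.GoodQ
import Fermat.Agent.S29.H882.MeroMain
import Fermat.Agent.S29.H882.MeroPrim
import Fermat.Agent.S29.H882.Inter
import Fermat.Agent.S29.H32.AutOrbit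
import Fermat.Agent.S29.H32.CoeffDescent
import Fermat.Agent.S29.M4b.H503.Add

set_option autoImplicit false

noncomputable section

open ModularCurve AlgebraicCurve CongruenceSubgroup UpperHalfPlane
open scoped MatrixGroups Manifold

namespace Fermat.Agent.S29.M4b.H503

open Fermat.Agent.S24 Fermat.Agent.S29 Fermat.Agent.S29.M4b

section RootCoeff

variable {k Ω : Type*} [Field k] [Field Ω] [Algebra k Ω] [IsAlgClosed k] [IsAlgClosed Ω]

/-- **`p`-th roots of algebraic series are algebraic.**  If `y ^ p` has coefficients in the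
algebraically closed subfield `k` of the algebraically closed field `Ω`, so has `y`. -/
theorem coeff_mem_range_of_pow_eq {p : ℕ} (hp : p ≠ 0) (y : LaurentSeries Ω)
    (w : LaurentSeries k) (h : y ^ p = coeffMap (algebraMap k Ω) w) (n : ℤ) :
    y.coeff n ∈ Set.range (algebraMap k Ω) := by
  classical
  by_cases hy : y = 0
  · exact ⟨0, by rw [hy, map_zero]; rfl⟩
  apply H32.mem_range_of_finite_orbit
  -- the `p`-th roots of unity of `Ω((q))`
  let R : Finset (LaurentSeries Ω) := Polynomial.nthRootsFinset p (1 : LaurentSeries Ω)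
  have hσ : ∀ σ : Ω ≃ₐ[k] Ω, ∃ r ∈ R, coeffMap (σ : Ω →+* Ω) y = r * y := by
    intro σ
    have h1 : coeffMap (σ : Ω →+* Ω) y ^ p = y ^ p := by
      rw [← map_pow, h, coeffMap_coeffMap]
      exact coeffMap_congr (RingHom.ext fun c => σ.commutes c) w
    refine ⟨coeffMap (σ : Ω →+* Ω) y / y, ?_, by rw [div_mul_cancel₀ _ hy]⟩
    rw [Polynomial.mem_nthRootsFinset (Nat.pos_of_ne_zero hp), div_pow, h1,
      div_self (pow_ne_zero p hy)]
  -- the orbit of the coefficient is contained in a finite set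
  refine Set.Finite.subset (R.image fun r => (r * y).coeff n).finite_toSet ?_
  rintro _ ⟨σ, rfl⟩
  obtain ⟨r, hr, hry⟩ := hσ σ
  simp only [Finset.coe_image, Set.mem_image, Finset.mem_coe]
  refine ⟨r, hr, ?_⟩
  rw [← hry, coeffMap_coeff]
  rfl

end RootCoeff

/-- `p`-th roots of algebraic series are algebraic, for `ι = Deg457.iotaC : ℚ̄ → ℂ`. -/
theorem exists_coeffMap_iotaC_eq_of_pow_eq {p : ℕ} (hp : p ≠ 0) (y : LaurentSeries ℂ)
    (w : LaurentSeries Kbar) (h : y ^ p = coeffMap Deg457.iotaC w) :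
    ∃ v : LaurentSeries Kbar, coeffMap Deg457.iotaC v = y := by
  let _ : Algebra Kbar ℂ := Deg457.iotaC.toAlgebra
  have hc : ∀ n, y.coeff n ∈ Set.range (algebraMap Kbar ℂ) :=
    fun n => coeff_mem_range_of_pow_eq hp y w h n
  exact ⟨H32.coeffDown (k := Kbar) y, H32.coeffMap_coeffDown hc⟩

variable (N : ℕ) [NeZero N] (p : ℕ) [NeZero p]

omit [NeZero N] [NeZero p] in
/-- A holomorphic `Γ₀(N)`-invariant function with a good `p`-th power is good. -/
theorem mem_goodRing_of_pow_mem {V : ℍ → ℂ} (hp : p ≠ 0) (hV : MDifferentiable 𝓘(ℂ) 𝓘(ℂ) V)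
    (hinv : ∀ γ ∈ Gamma0 N, ∀ τ : ℍ, V (γ • τ) = V τ)
    (hpow : (fun τ => V τ ^ p) ∈ H648.goodRing N) : V ∈ H648.goodRing N := by
  refine ⟨hV, hinv, fun g => ?_⟩
  obtain ⟨C, m, hC⟩ := hpow.2.2 g
  refine ⟨1 + |C|, m, fun τ hτ => ?_⟩
  have hexp : 1 ≤ Real.exp (2 * Real.pi * m * τ.im) := by
    apply Real.one_le_exp
    have : 0 ≤ τ.im := by linarith
    positivity
  have hB := hC τ hτ
  simp only [norm_pow] at hB
  have hCle : C * Real.exp (2 * Real.pi * m * τ.im)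
      ≤ |C| * Real.exp (2 * Real.pi * m * τ.im) :=
    mul_le_mul_of_nonneg_right (le_abs_self C) (by positivity)
  have habs : 0 ≤ |C| := abs_nonneg C
  rcases le_or_gt ‖V (g • τ)‖ 1 with h1 | h1
  · calc ‖V (g • τ)‖ ≤ 1 := h1
      _ ≤ Real.exp (2 * Real.pi * m * τ.im) := hexp
      _ ≤ (1 + |C|) * Real.exp (2 * Real.pi * m * τ.im) := by nlinarith
  · have h2 : ‖V (g • τ)‖ ≤ ‖V (g • τ)‖ ^ p :=
      le_self_pow₀ h1.le hp
    calc ‖V (g • τ)‖ ≤ ‖V (g • τ)‖ ^ p := h2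
      _ ≤ C * Real.exp (2 * Real.pi * m * τ.im) := hB
      _ ≤ |C| * Real.exp (2 * Real.pi * m * τ.im) := hCle
      _ ≤ (1 + |C|) * Real.exp (2 * Real.pi * m * τ.im) := by nlinarith

/-- Core of `K4-UNIQ`: if a good function `V` has a `p`-th power realising `w ∈ FF N`, then `w` is
a `p`-th power in `FF N`. -/
theorem exists_pow_eq_of_realises {V : ℍ → ℂ} (hV : V ∈ H648.goodRing N) {w : FF N}
    (hreal : Realises N w (fun τ => V τ ^ p)) : ∃ v : FF N, v ^ p = w := by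
  have hp : p ≠ 0 := NeZero.ne p
  have hVq : H708.HasQExp 1 V (H708.qexpFun 1 V) := H882.hasQExp_of_mem_goodRing hV
  have hVp : H708.HasQExp 1 (V ^ p) (H708.qexpFun 1 V ^ p) := hVq.pow p
  have hy : H708.qexpFun 1 V ^ p = coeffMap Deg457.iotaC ((w : FF N) : LaurentSeries Kbar) := by
    have h1 : H708.qexpFun 1 (V ^ p) = H708.qexpFun 1 V ^ p := hVp.qexpFun_eq
    have h2 : (V ^ p : ℍ → ℂ) = fun τ => V τ ^ p := rfl
    rw [← h1, h2, hreal.2]
  obtain ⟨v₀, hv₀⟩ := exists_coeffMap_iotaC_eq_of_pow_eq hp _ _ hy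
  have hmem : v₀ ∈ laurentBaseChange Kbar (modularFunctionFieldFull N) := by
    apply H882.mem_laurentBaseChange_of_coeffMap_mem Deg457.iotaC
    rw [hv₀]
    exact H882.qexpFun_mem_FC hV
  have hιinj : Function.Injective (coeffMap Deg457.iotaC : LaurentSeries Kbar → _) := by
    intro x y hxy
    ext n
    have := congrArg (fun z => z.coeff n) hxy
    simp only [coeffMap_coeff] at this
    exact Deg457.iotaC.injective this
  refine ⟨⟨v₀, hmem⟩, ?_⟩
  apply Subtype.ext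
  apply hιinj
  rw [← hy, ← hv₀, ← map_pow]
  rfl

omit [NeZero N] in
/-- Powers of Kummer classes. -/
theorem isKummerClass_pow {n : ℤ} {f : FF N} {x : JZero N} (hx : H455.IsKummerClass n f x)
    (k : ℕ) : H455.IsKummerClass n (f ^ k) (k • x) := by
  induction k with
  | zero => simpa using (H455.IsKummerClass.zero (n := n) (K := Kbar) (F := FF N))
  | succ k ih =>
    rw [pow_succ, succ_nsmul]
    exact ih.add hx

/-- PIECE `K4-UNIQ`: the Kummer class of a character is unique. -/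
theorem isKum_unique {c : G0 N → ZMod p} {x x' : JZero N}
    (h : IsKum N p c x) (h' : IsKum N p c x') : x = x' := by
  have hp : p ≠ 0 := NeZero.ne p
  have hpz : (p : ℤ) ≠ 0 := by exact_mod_cast hp
  obtain ⟨f, t, U, ht, hx, hU, hreal⟩ := h
  obtain ⟨f', t', U', ht', hx', hU', hreal'⟩ := h'
  have hf : f ≠ 0 := hx.ne_zero
  have hf' : f' ≠ 0 := hx'.ne_zero
  -- the invariant function `V = U * U' ^ (p - 1)`
  set V : ℍ → ℂ := fun τ => U τ * U' τ ^ (p - 1) with hVdef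
  have hVm : MDifferentiable 𝓘(ℂ) 𝓘(ℂ) V := hU.mdiff.mul (hU'.mdiff.pow (p - 1))
  have hVinv : ∀ γ ∈ Gamma0 N, ∀ τ : ℍ, V (γ • τ) = V τ := by
    intro γ hγ τ
    have h1 := hU.hasChar ⟨γ, hγ⟩ τ
    have h2 := hU'.hasChar ⟨γ, hγ⟩ τ
    simp only at h1 h2
    show U (γ • τ) * U' (γ • τ) ^ (p - 1) = U τ * U' τ ^ (p - 1)
    rw [h1, h2, mul_pow, ← pow_mul]
    have h3 : zetaP p ^ (c ⟨γ, hγ⟩).val * zetaP p ^ ((c ⟨γ, hγ⟩).val * (p - 1)) = 1 := by
      have hp1 : p - 1 + 1 = p := Nat.sub_add_cancel (Nat.one_le_iff_ne_zero.mpr hp)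
      have e : (c ⟨γ, hγ⟩).val + (c ⟨γ, hγ⟩).val * (p - 1) = p * (c ⟨γ, hγ⟩).val := by
        calc (c ⟨γ, hγ⟩).val + (c ⟨γ, hγ⟩).val * (p - 1)
            = (c ⟨γ, hγ⟩).val * (p - 1 + 1) := by ring
          _ = p * (c ⟨γ, hγ⟩).val := by rw [hp1, mul_comm]
      rw [← pow_add, e, pow_mul, zetaP_pow_self, one_pow]
    linear_combination (U τ * U' τ ^ (p - 1)) * h3
  have hVpow : (fun τ => V τ ^ p) = (fun τ => U τ ^ p) * (fun τ => U' τ ^ p) ^ (p - 1) := by
    funext τ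
    simp only [hVdef, Pi.mul_apply, Pi.pow_apply, mul_pow]
    rw [← pow_mul, ← pow_mul, mul_comm (p - 1) p]
  have hVpmem : (fun τ => V τ ^ p) ∈ H648.goodRing N := by
    rw [hVpow]
    exact mul_mem hreal.1 (pow_mem hreal'.1 _)
  have hVg : V ∈ H648.goodRing N := mem_goodRing_of_pow_mem N p hp hVm hVinv hVpmem
  -- `V ^ p` realises `w`
  set w : FF N := (f * t ^ p) * (f' * t' ^ p) ^ (p - 1) with hw
  have hrealV : Realises N w (fun τ => V τ ^ p) := by
    refine ⟨hVpmem, ?_⟩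
    rw [hVpow]
    have e1 : H708.HasQExp 1 (fun τ => U τ ^ p)
        (coeffMap Deg457.iotaC ((f * t ^ p : FF N) : LaurentSeries Kbar)) :=
      ⟨H882.isMerInf_of_mem_goodRing hreal.1, hreal.2⟩
    have e2 : H708.HasQExp 1 (fun τ => U' τ ^ p)
        (coeffMap Deg457.iotaC ((f' * t' ^ p : FF N) : LaurentSeries Kbar)) :=
      ⟨H882.isMerInf_of_mem_goodRing hreal'.1, hreal'.2⟩
    rw [(e1.mul (e2.pow (p - 1))).qexpFun_eq, ← map_pow, ← map_mul]
    rfl
  obtain ⟨v, hv⟩ := exists_pow_eq_of_realises N p hVg hrealV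
  -- `f * f' ^ (p-1)` is a `p`-th power
  set s : FF N := t * t' ^ (p - 1) with hs
  have hs0 : s ≠ 0 := mul_ne_zero ht (pow_ne_zero _ ht')
  set g : FF N := v * s⁻¹ with hg
  have hgp : g ^ p = f * f' ^ (p - 1) := by
    rw [hg, mul_pow, hv, hw, hs, inv_pow]
    have : (t * t' ^ (p - 1)) ^ p ≠ 0 := pow_ne_zero p hs0
    field_simp
    ring
  have hff : f * f' ^ (p - 1) ≠ 0 := mul_ne_zero hf (pow_ne_zero _ hf')
  have hg0 : g ≠ 0 := by
    rintro h0
    rw [h0, zero_pow hp] at hgp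
    exact hff hgp.symm
  have hK : H455.IsKummerClass (p : ℤ) (f * f' ^ (p - 1)) (x + (p - 1) • x') :=
    hx.add (isKummerClass_pow N hx' (p - 1))
  have h0 : x + (p - 1) • x' = 0 := by
    rw [hK.eq_zero_iff hpz]
    refine ⟨g, hg0, fun w => ?_⟩
    rw [← hgp]
    have := Place.ord_zpow w g (p : ℤ)
    rwa [zpow_natCast] at this
  have h1 : (p : ℤ) • x' = 0 := hx'.zsmul_eq_zero
  have h2 : p • x' = 0 := by
    rw [← natCast_zsmul]
    exact h1
  have h3 : (p - 1) • x' + x' = 0 := by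
    rw [← succ_nsmul, Nat.sub_add_cancel (Nat.one_le_iff_ne_zero.mpr hp)]
    exact h2
  have h4 : x - x' = 0 := by
    have : x - x' = (x + (p - 1) • x') - ((p - 1) • x' + x') := by abel
    rw [this, h0, h3, sub_zero]
  exact sub_eq_zero.mp h4

end Fermat.Agent.S29.M4b.H503
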